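import Mathlib

/-!
# Herbrand quotients: the general `(f, g)` calculus on subquotients

`A` is a commutative group, `f g : A →* A` are endomorphisms with `f ∘ g = g ∘ f = 1`
(think of `f = σ - 1`, `g = N = 1 + σ + ... + σ^(n-1)`).
For subgroups `S ≤ T` of `A`, stable under `f` and `g`, the number

  `mulQ f g S T = (g T ⊔ S : f⁻¹ S ⊓ T) = #(ker (f | T/S) / im (g | T/S))`

is the order of the "cohomology group" `H_{f,g}(T/S)` (`0` if it is infinite).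
Everything is stated with `Subgroup.relIndex`, no quotient types are needed.
All statements have additive versions (`addQ`, ...).

Main results:
* `exists_hexagon`: the six numbers attached to `R ≤ S ≤ T` are `m₆ m₁, m₁ m₂, ..., m₅ m₆`;
* `mulQ_hexagon`: multiplicativity of the Herbrand quotient;
* `mulQ_ne_zero_mid/left/right`: finiteness of two of the three implies finiteness of the third;
* `mulQ_symm_of_relIndex_ne_zero`: finite subquotients have Herbrand quotient `1`;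
* `mulQ_map`, `mulQ_comap`: transport along equivariant injections / surjections.
-/

set_option autoImplicit false

namespace Fermat.Agent.CFT.HQ

open Subgroup

variable {A : Type*} [CommGroup A]

/-- `mulQ f g S T = (g T ⊔ S : f⁻¹ S ⊓ T)`, the order of `ker f / im g` on `T / S`. -/
@[to_additive /-- `addQ f g S T = (g T ⊔ S : f⁻¹ S ⊓ T)`, the order of `ker f / im g` on
`T / S`. -/]
noncomputable def mulQ (f g : A →* A) (S T : Subgroup A) : ℕ :=
  (T.map g ⊔ S).relIndex (S.comap f ⊓ T)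

@[to_additive]
theorem mulQ_def (f g : A →* A) (S T : Subgroup A) :
    mulQ f g S T = (T.map g ⊔ S).relIndex (S.comap f ⊓ T) := rfl

@[to_additive]
theorem mulQ_bot_top (f g : A →* A) : mulQ f g ⊥ ⊤ = g.range.relIndex f.ker := by
  rw [mulQ_def, sup_bot_eq, inf_top_eq, ← MonoidHom.range_eq_map, MonoidHom.comap_bot]

@[to_additive]
theorem mulQ_bot (f g : A →* A) (T : Subgroup A) :
    mulQ f g ⊥ T = (T.map g).relIndex (f.ker ⊓ T) := by
  rw [mulQ_def, sup_bot_eq, MonoidHom.comap_bot]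

@[to_additive]
theorem mulQ_top (f g : A →* A) (S : Subgroup A) :
    mulQ f g S ⊤ = (g.range ⊔ S).relIndex (S.comap f) := by
  rw [mulQ_def, inf_top_eq, ← MonoidHom.range_eq_map]

/-! ### Lattice lemmas -/

@[to_additive]
theorem mulQ_aux_inf_relIndex_inf (H K S : Subgroup A) :
    (H ⊓ S).relIndex (K ⊓ S) = H.relIndex (K ⊓ S) := by
  rw [← inf_relIndex_right (H ⊓ S), ← inf_relIndex_right H]
  congr 1
  rw [inf_assoc, ← inf_assoc S, inf_comm S K, inf_assoc K, inf_idem]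

@[to_additive]
theorem mulQ_aux_comap_map_sup (f : A →* A) (S R : Subgroup A) :
    (S.map f ⊔ R).comap f = S ⊔ R.comap f := by
  apply le_antisymm
  · intro x hx
    rw [mem_comap, mem_sup] at hx
    obtain ⟨y, hy, r, hr, hyr⟩ := hx
    obtain ⟨s, hs, rfl⟩ := mem_map.1 hy
    rw [mem_sup]
    refine ⟨s, hs, s⁻¹ * x, ?_, by group⟩
    rw [mem_comap, map_mul, map_inv, ← hyr]
    simpa using hr
  · refine sup_le ?_ (comap_mono le_sup_right)
    exact (le_comap_map f S).trans (comap_mono le_sup_left)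

@[to_additive]
theorem mulQ_aux_map_comap_inf (f : A →* A) (S T : Subgroup A) :
    (S.comap f ⊓ T).map f = S ⊓ T.map f := by
  ext y
  constructor
  · rintro ⟨x, ⟨hx1, hx2⟩, rfl⟩
    exact ⟨hx1, mem_map_of_mem f hx2⟩
  · rintro ⟨hy1, x, hx, rfl⟩
    exact ⟨x, ⟨hy1, hx⟩, rfl⟩

/-! ### The hexagon -/

section Hexagon

variable (f g : A →* A) {R S T : Subgroup A}

/-- the "connecting" number `(f S ⊔ R : (f T ⊔ R) ⊓ S)` -/
@[to_additive /-- the "connecting" number `(f S ⊔ R : (f T ⊔ R) ⊓ S)` -/]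
noncomputable def mulQ_k (f : A →* A) (R S T : Subgroup A) : ℕ :=
  (S.map f ⊔ R).relIndex ((T.map f ⊔ R) ⊓ S)

/-- the order of the image of `H(S/R) → H(T/R)` -/
@[to_additive /-- the order of the image of `H(S/R) → H(T/R)` -/]
noncomputable def mulQ_m₁ (f g : A →* A) (R S T : Subgroup A) : ℕ :=
  (T.map g ⊔ R).relIndex (R.comap f ⊓ S)

/-- the order of the image of `H(T/R) → H(T/S)` -/
@[to_additive /-- the order of the image of `H(T/R) → H(T/S)` -/]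
noncomputable def mulQ_m₂ (f g : A →* A) (R S T : Subgroup A) : ℕ :=
  (T.map g ⊔ R ⊔ (R.comap f ⊓ S)).relIndex (R.comap f ⊓ T)

variable {f g}

@[to_additive]
theorem mulQ_sub_eq (hfg : ∀ a, f (g a) = 1) (hRS : R ≤ S) (hST : S ≤ T)
    (hfR : ∀ x ∈ R, f x ∈ R) (hgS : ∀ x ∈ S, g x ∈ S) :
    mulQ f g R S = mulQ_k g R S T * mulQ_m₁ f g R S T := by
  have hgT : T.map g ≤ R.comap f := by
    rintro _ ⟨x, -, rfl⟩
    rw [mem_comap, hfg]; exact one_mem _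
  have hRR : R ≤ R.comap f := fun x hx => hfR x hx
  have hgSS : S.map g ≤ S := by
    rintro _ ⟨x, hx, rfl⟩; exact hgS x hx
  have h1 : S.map g ⊔ R ≤ (T.map g ⊔ R) ⊓ S :=
    le_inf (sup_le_sup_right (map_mono hST) R) (sup_le hgSS hRS)
  have h2 : (T.map g ⊔ R) ⊓ S ≤ R.comap f ⊓ S := inf_le_inf_right S (sup_le hgT hRR)
  rw [mulQ_def, mulQ_k, mulQ_m₁, ← relIndex_mul_relIndex _ _ _ h1 h2,
    mulQ_aux_inf_relIndex_inf]

@[to_additive]
theorem mulQ_mid_eq (hfg : ∀ a, f (g a) = 1) (hST : S ≤ T)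
    (hfR : ∀ x ∈ R, f x ∈ R) (hRT : R ≤ T) (hgT' : ∀ x ∈ T, g x ∈ T) :
    mulQ f g R T = mulQ_m₁ f g R S T * mulQ_m₂ f g R S T := by
  have hgT : T.map g ≤ R.comap f := by
    rintro _ ⟨x, -, rfl⟩
    rw [mem_comap, hfg]; exact one_mem _
  have hRR : R ≤ R.comap f := fun x hx => hfR x hx
  have hgTT : T.map g ≤ T := by
    rintro _ ⟨x, hx, rfl⟩; exact hgT' x hx
  have h2 : T.map g ⊔ R ⊔ (R.comap f ⊓ S) ≤ R.comap f ⊓ T :=
    sup_le (le_inf (sup_le hgT hRR) (sup_le hgTT hRT)) (inf_le_inf_left _ hST)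
  rw [mulQ_def, mulQ_m₁, mulQ_m₂, ← relIndex_mul_relIndex _ _ _ le_sup_left h2,
    relIndex_sup_left]

@[to_additive]
theorem mulQ_quot_eq (hfg : ∀ a, f (g a) = 1) (hRS : R ≤ S) (hST : S ≤ T)
    (hfR : ∀ x ∈ R, f x ∈ R) (hfS : ∀ x ∈ S, f x ∈ S) (hgT' : ∀ x ∈ T, g x ∈ T) :
    mulQ f g S T = mulQ_m₂ f g R S T * mulQ_k f R S T := by
  have hgT : T.map g ≤ R.comap f := by
    rintro _ ⟨x, -, rfl⟩
    rw [mem_comap, hfg]; exact one_mem _
  have hRR : R ≤ R.comap f := fun x hx => hfR x hx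
  have hSS : S ≤ S.comap f := fun x hx => hfS x hx
  have hfSS : S.map f ≤ S := by
    rintro _ ⟨x, hx, rfl⟩; exact hfS x hx
  have hgTT : T.map g ≤ T := by
    rintro _ ⟨x, hx, rfl⟩; exact hgT' x hx
  have hg1 : T.map g ≤ R.comap f ⊓ T := le_inf hgT hgTT
  have h1 : T.map g ⊔ S ≤ (R.comap f ⊓ T) ⊔ S := sup_le_sup_right hg1 S
  have h2 : (R.comap f ⊓ T) ⊔ S ≤ S.comap f ⊓ T :=
    sup_le (inf_le_inf_right T (comap_mono hRS)) (le_inf hSS hST)
  rw [mulQ_def, ← relIndex_mul_relIndex _ _ _ h1 h2]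
  congr 1
  · -- first factor
    have e1 : (R.comap f ⊓ T) ⊔ S = (R.comap f ⊓ T) ⊔ (T.map g ⊔ S) := by
      rw [← sup_assoc, sup_eq_left.2 hg1]
    rw [e1, relIndex_sup_right, mulQ_m₂, ← inf_relIndex_right]
    congr 1
    rw [sup_inf_assoc_of_le S hg1, sup_assoc, sup_eq_right.2 (le_inf hRR hRS)]
    congr 1
    rw [inf_comm S, inf_assoc, inf_eq_right.2 hST]
  · -- second factor
    rw [mulQ_k]
    have e1 : ((R.comap f ⊓ T) ⊔ S).relIndex (S.comap f ⊓ T)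
        = ((S.map f ⊔ R).comap f).relIndex (S.comap f ⊓ T) := by
      rw [mulQ_aux_comap_map_sup, ← mulQ_aux_inf_relIndex_inf (S ⊔ R.comap f),
        sup_inf_assoc_of_le _ hST, sup_comm]
    rw [e1, relIndex_comap, mulQ_aux_map_comap_inf]
    have e2 : (T.map f ⊔ R) ⊓ S = (S ⊓ T.map f) ⊔ (S.map f ⊔ R) := by
      rw [sup_comm (T.map f), sup_inf_assoc_of_le _ hRS, ← sup_assoc,
        sup_eq_left.2 (le_inf hfSS (map_mono hST)), sup_comm, inf_comm]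
    rw [e2, relIndex_sup_right]

/-- **The hexagon, numerically.**  For `f`,`g`-stable subgroups `R ≤ S ≤ T` the orders of the six
groups `H_{f,g}(S/R), H_{f,g}(T/R), H_{f,g}(T/S), H_{g,f}(S/R), H_{g,f}(T/R), H_{g,f}(T/S)` are
`m₆ m₁, m₁ m₂, m₂ m₃, m₃ m₄, m₄ m₅, m₅ m₆` (with the convention `∞ = 0`). -/
@[to_additive /-- **The hexagon, numerically** (additive version). -/]
theorem exists_mulQ_hexagon (hfg : ∀ a, f (g a) = 1) (hgf : ∀ a, g (f a) = 1)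
    (hRS : R ≤ S) (hST : S ≤ T)
    (hfR : ∀ x ∈ R, f x ∈ R) (hgR : ∀ x ∈ R, g x ∈ R)
    (hfS : ∀ x ∈ S, f x ∈ S) (hgS : ∀ x ∈ S, g x ∈ S)
    (hfT : ∀ x ∈ T, f x ∈ T) (hgT : ∀ x ∈ T, g x ∈ T) :
    ∃ m₁ m₂ m₃ m₄ m₅ m₆ : ℕ,
      mulQ f g R S = m₆ * m₁ ∧ mulQ f g R T = m₁ * m₂ ∧ mulQ f g S T = m₂ * m₃ ∧
      mulQ g f R S = m₃ * m₄ ∧ mulQ g f R T = m₄ * m₅ ∧ mulQ g f S T = m₅ * m₆ :=
  ⟨mulQ_m₁ f g R S T, mulQ_m₂ f g R S T, mulQ_k f R S T,
    mulQ_m₁ g f R S T, mulQ_m₂ g f R S T, mulQ_k g R S T,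
    mulQ_sub_eq hfg hRS hST hfR hgS, mulQ_mid_eq hfg hST hfR (hRS.trans hST) hgT,
    mulQ_quot_eq hfg hRS hST hfR hfS hgT,
    mulQ_sub_eq hgf hRS hST hgR hfS, mulQ_mid_eq hgf hST hgR (hRS.trans hST) hfT,
    mulQ_quot_eq hgf hRS hST hgR hgS hfT⟩

/-- **Multiplicativity of the Herbrand quotient** (valid without any finiteness assumption,
with the convention `∞ = 0`). -/
@[to_additive /-- **Multiplicativity of the Herbrand quotient** (additive version). -/]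
theorem mulQ_hexagon (hfg : ∀ a, f (g a) = 1) (hgf : ∀ a, g (f a) = 1)
    (hRS : R ≤ S) (hST : S ≤ T)
    (hfR : ∀ x ∈ R, f x ∈ R) (hgR : ∀ x ∈ R, g x ∈ R)
    (hfS : ∀ x ∈ S, f x ∈ S) (hgS : ∀ x ∈ S, g x ∈ S)
    (hfT : ∀ x ∈ T, f x ∈ T) (hgT : ∀ x ∈ T, g x ∈ T) :
    mulQ f g R T * (mulQ g f R S * mulQ g f S T) = mulQ g f R T * (mulQ f g R S * mulQ f g S T) := by
  obtain ⟨m₁, m₂, m₃, m₄, m₅, m₆, h1, h2, h3, h4, h5, h6⟩ :=
    exists_mulQ_hexagon hfg hgf hRS hST hfR hgR hfS hgS hfT hgT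
  rw [h1, h2, h3, h4, h5, h6]; ring

@[to_additive]
theorem mulQ_ne_zero_mid (hfg : ∀ a, f (g a) = 1)
    (hRS : R ≤ S) (hST : S ≤ T)
    (hfR : ∀ x ∈ R, f x ∈ R) (hfS : ∀ x ∈ S, f x ∈ S) (hgS : ∀ x ∈ S, g x ∈ S)
    (hgT : ∀ x ∈ T, g x ∈ T)
    (h1 : mulQ f g R S ≠ 0) (h2 : mulQ f g S T ≠ 0) : mulQ f g R T ≠ 0 := by
  rw [mulQ_sub_eq hfg hRS hST hfR hgS] at h1
  rw [mulQ_quot_eq hfg hRS hST hfR hfS hgT] at h2
  rw [mulQ_mid_eq hfg hST hfR (hRS.trans hST) hgT]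
  exact mul_ne_zero (right_ne_zero_of_mul h1) (left_ne_zero_of_mul h2)

@[to_additive]
theorem mulQ_ne_zero_left (hfg : ∀ a, f (g a) = 1) (hgf : ∀ a, g (f a) = 1)
    (hRS : R ≤ S) (hST : S ≤ T)
    (hfR : ∀ x ∈ R, f x ∈ R) (hgR : ∀ x ∈ R, g x ∈ R) (hgS : ∀ x ∈ S, g x ∈ S)
    (hfT : ∀ x ∈ T, f x ∈ T) (hgT : ∀ x ∈ T, g x ∈ T)
    (h1 : mulQ f g R T ≠ 0) (h2 : mulQ g f S T ≠ 0) : mulQ f g R S ≠ 0 := by
  rw [mulQ_mid_eq hfg hST hfR (hRS.trans hST) hgT] at h1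
  rw [mulQ_quot_eq hgf hRS hST hgR hgS hfT] at h2
  rw [mulQ_sub_eq hfg hRS hST hfR hgS]
  exact mul_ne_zero (right_ne_zero_of_mul h2) (left_ne_zero_of_mul h1)

@[to_additive]
theorem mulQ_ne_zero_right (hfg : ∀ a, f (g a) = 1) (hgf : ∀ a, g (f a) = 1)
    (hRS : R ≤ S) (hST : S ≤ T)
    (hfR : ∀ x ∈ R, f x ∈ R) (hgR : ∀ x ∈ R, g x ∈ R) (hfS : ∀ x ∈ S, f x ∈ S)
    (hgT : ∀ x ∈ T, g x ∈ T)
    (h1 : mulQ f g R T ≠ 0) (h2 : mulQ g f R S ≠ 0) : mulQ f g S T ≠ 0 := by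
  rw [mulQ_mid_eq hfg hST hfR (hRS.trans hST) hgT] at h1
  rw [mulQ_sub_eq hgf hRS hST hgR hfS] at h2
  rw [mulQ_quot_eq hfg hRS hST hfR hfS hgT]
  exact mul_ne_zero (right_ne_zero_of_mul h1) (left_ne_zero_of_mul h2)

/-- `(T : S) = (g T ⊔ S : S) * #H_{f,g}(T/S) * (f T ⊔ S : S)`. -/
@[to_additive]
theorem mulQ_relIndex_eq (hfg : ∀ a, f (g a) = 1) (hST : S ≤ T)
    (hfS : ∀ x ∈ S, f x ∈ S) (hgT : ∀ x ∈ T, g x ∈ T) :
    S.relIndex T = S.relIndex (T.map g ⊔ S) * mulQ f g S T * S.relIndex (T.map f ⊔ S) := by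
  have hSS : S ≤ S.comap f := fun x hx => hfS x hx
  have hgTT : T.map g ≤ T := by
    rintro _ ⟨x, hx, rfl⟩; exact hgT x hx
  have hgT' : T.map g ≤ S.comap f := by
    rintro _ ⟨x, -, rfl⟩
    rw [mem_comap, hfg]; exact one_mem _
  have h1 : T.map g ⊔ S ≤ S.comap f ⊓ T := sup_le (le_inf hgT' hgTT) (le_inf hSS hST)
  rw [mulQ_def, relIndex_mul_relIndex _ _ _ le_sup_right h1, relIndex_sup_right,
    ← relIndex_comap, ← inf_relIndex_right (S.comap f),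
    relIndex_mul_relIndex _ _ _ (le_inf hSS hST) inf_le_right]

/-- A finite subquotient has Herbrand quotient `1`. -/
@[to_additive /-- A finite subquotient has Herbrand quotient `1`. -/]
theorem mulQ_symm_of_relIndex_ne_zero (hfg : ∀ a, f (g a) = 1) (hgf : ∀ a, g (f a) = 1)
    (hST : S ≤ T) (hfS : ∀ x ∈ S, f x ∈ S) (hgS : ∀ x ∈ S, g x ∈ S)
    (hfT : ∀ x ∈ T, f x ∈ T) (hgT : ∀ x ∈ T, g x ∈ T) (hfin : S.relIndex T ≠ 0) :
    mulQ f g S T = mulQ g f S T := by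
  have h1 := mulQ_relIndex_eq hfg hST hfS hgT
  have h2 := mulQ_relIndex_eq hgf hST hgS hfT
  rw [h1] at hfin
  have ha : S.relIndex (T.map g ⊔ S) ≠ 0 := left_ne_zero_of_mul (left_ne_zero_of_mul hfin)
  have hb : S.relIndex (T.map f ⊔ S) ≠ 0 := right_ne_zero_of_mul hfin
  rw [h1] at h2
  have h3 : (S.relIndex (T.map g ⊔ S) * S.relIndex (T.map f ⊔ S)) * mulQ f g S T
      = (S.relIndex (T.map g ⊔ S) * S.relIndex (T.map f ⊔ S)) * mulQ g f S T := by
    calc _ = S.relIndex (T.map g ⊔ S) * mulQ f g S T * S.relIndex (T.map f ⊔ S) := by ring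
      _ = _ := by rw [h2]; ring
  exact Nat.eq_of_mul_eq_mul_left (Nat.pos_of_ne_zero (mul_ne_zero ha hb)) h3

@[to_additive]
theorem mulQ_ne_zero_of_relIndex_ne_zero (hfg : ∀ a, f (g a) = 1)
    (hST : S ≤ T) (hfS : ∀ x ∈ S, f x ∈ S) (hgT : ∀ x ∈ T, g x ∈ T)
    (hfin : S.relIndex T ≠ 0) : mulQ f g S T ≠ 0 := by
  rw [mulQ_relIndex_eq hfg hST hfS hgT] at hfin
  exact right_ne_zero_of_mul (left_ne_zero_of_mul hfin)

/-- Passing to a stable subgroup of finite index does not change the Herbrand quotient. -/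
@[to_additive /-- Passing to a stable subgroup of finite index does not change the Herbrand
quotient. -/]
theorem mulQ_of_relIndex_ne_zero (hfg : ∀ a, f (g a) = 1) (hgf : ∀ a, g (f a) = 1)
    (hRS : R ≤ S) (hST : S ≤ T)
    (hfR : ∀ x ∈ R, f x ∈ R) (hgR : ∀ x ∈ R, g x ∈ R)
    (hfS : ∀ x ∈ S, f x ∈ S) (hgS : ∀ x ∈ S, g x ∈ S)
    (hfT : ∀ x ∈ T, f x ∈ T) (hgT : ∀ x ∈ T, g x ∈ T) (hfin : S.relIndex T ≠ 0) :
    mulQ f g R T * mulQ g f R S = mulQ g f R T * mulQ f g R S := by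
  have h := mulQ_hexagon hfg hgf hRS hST hfR hgR hfS hgS hfT hgT
  rw [mulQ_symm_of_relIndex_ne_zero hfg hgf hST hfS hgS hfT hgT hfin, ← mul_assoc,
    ← mul_assoc] at h
  exact Nat.eq_of_mul_eq_mul_right
    (Nat.pos_of_ne_zero (mulQ_ne_zero_of_relIndex_ne_zero hgf hST hgS hfT hfin)) h

/-- Dividing by a finite stable subgroup does not change the Herbrand quotient. -/
@[to_additive /-- Dividing by a finite stable subgroup does not change the Herbrand quotient. -/]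
theorem mulQ_of_relIndex_ne_zero' (hfg : ∀ a, f (g a) = 1) (hgf : ∀ a, g (f a) = 1)
    (hRS : R ≤ S) (hST : S ≤ T)
    (hfR : ∀ x ∈ R, f x ∈ R) (hgR : ∀ x ∈ R, g x ∈ R)
    (hfS : ∀ x ∈ S, f x ∈ S) (hgS : ∀ x ∈ S, g x ∈ S)
    (hfT : ∀ x ∈ T, f x ∈ T) (hgT : ∀ x ∈ T, g x ∈ T) (hfin : R.relIndex S ≠ 0) :
    mulQ f g R T * mulQ g f S T = mulQ g f R T * mulQ f g S T := by
  have h := mulQ_hexagon hfg hgf hRS hST hfR hgR hfS hgS hfT hgT
  rw [mulQ_symm_of_relIndex_ne_zero hfg hgf hRS hfR hgR hfS hgS hfin,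
    mul_comm (mulQ g f R S), mul_comm (mulQ g f R S), ← mul_assoc, ← mul_assoc] at h
  exact Nat.eq_of_mul_eq_mul_right
    (Nat.pos_of_ne_zero (mulQ_ne_zero_of_relIndex_ne_zero hgf hRS hgR hfS hfin)) h

@[to_additive]
theorem mulQ_eq_one_iff : mulQ f g S T = 1 ↔ S.comap f ⊓ T ≤ T.map g ⊔ S := by
  rw [mulQ_def, relIndex_eq_one]

@[to_additive]
theorem mulQ_self : mulQ f g S S = 1 := by
  rw [mulQ_eq_one_iff]
  exact inf_le_right.trans le_sup_right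

end Hexagon

/-! ### Transport -/

section Transport

variable {A' : Type*} [CommGroup A'] {f g : A →* A} {f' g' : A' →* A'} (φ : A →* A')

/-- Transport along an equivariant injection. -/
@[to_additive /-- Transport along an equivariant injection. -/]
theorem mulQ_map (hφ : Function.Injective φ) (hf : ∀ a, φ (f a) = f' (φ a))
    (hg : ∀ a, φ (g a) = g' (φ a)) (S T : Subgroup A) :
    mulQ f' g' (S.map φ) (T.map φ) = mulQ f g S T := by
  have e1 : (T.map φ).map g' ⊔ S.map φ = (T.map g ⊔ S).map φ := by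
    rw [Subgroup.map_sup, map_map, map_map]
    congr 2
    ext a; simp [hg]
  have e2 : (S.map φ).comap f' ⊓ T.map φ = (S.comap f ⊓ T).map φ := by
    ext y
    constructor
    · rintro ⟨h1, t, ht, rfl⟩
      have h1' : f' (φ t) ∈ S.map φ := h1
      rw [← hf] at h1'
      obtain ⟨s, hs, hst⟩ := h1'
      exact ⟨t, ⟨by change f t ∈ S; rw [← hφ hst]; exact hs, ht⟩, rfl⟩
    · rintro ⟨t, ⟨h1, h2⟩, rfl⟩
      exact ⟨by change f' (φ t) ∈ S.map φ; rw [← hf]; exact mem_map_of_mem φ h1,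
        mem_map_of_mem φ h2⟩
  rw [mulQ_def, e1, e2, relIndex_map_map_of_injective _ _ hφ, mulQ_def]

/-- Transport along an equivariant surjection. -/
@[to_additive /-- Transport along an equivariant surjection. -/]
theorem mulQ_comap (hφ : Function.Surjective φ) (hf : ∀ a, φ (f a) = f' (φ a))
    (hg : ∀ a, φ (g a) = g' (φ a)) (S' T' : Subgroup A') :
    mulQ f g (S'.comap φ) (T'.comap φ) = mulQ f' g' S' T' := by
  have e1 : (T'.comap φ).map g ⊔ S'.comap φ = (T'.map g' ⊔ S').comap φ := by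
    apply le_antisymm
    · refine sup_le ?_ (comap_mono le_sup_right)
      rintro _ ⟨t, ht, rfl⟩
      rw [mem_comap, hg]
      exact mem_sup_left (mem_map_of_mem g' ht)
    · intro x hx
      rw [mem_comap, mem_sup] at hx
      obtain ⟨y, ⟨t', ht', rfl⟩, s', hs', hx⟩ := hx
      obtain ⟨t, rfl⟩ := hφ t'
      rw [mem_sup]
      refine ⟨g t, mem_map_of_mem g ht', (g t)⁻¹ * x, ?_, by group⟩
      rw [mem_comap, map_mul, map_inv, hg, ← hx]
      simpa using hs'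
  have e2 : (S'.comap φ).comap f ⊓ T'.comap φ = (S'.comap f' ⊓ T').comap φ := by
    ext x
    simp only [mem_inf, mem_comap, hf]
  rw [mulQ_def, e1, e2, relIndex_comap, map_comap_eq_self_of_surjective hφ, mulQ_def]

/-- `#H_{f,g}` of the target of an equivariant surjection `φ` is `#H_{f,g}(A / ker φ)`. -/
@[to_additive]
theorem mulQ_ker_top (hφ : Function.Surjective φ) (hf : ∀ a, φ (f a) = f' (φ a))
    (hg : ∀ a, φ (g a) = g' (φ a)) : mulQ f g φ.ker ⊤ = mulQ f' g' ⊥ ⊤ := by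
  rw [← mulQ_comap φ hφ hf hg, MonoidHom.comap_bot, comap_top]

/-- `#H_{f,g}` of the source of an equivariant injection `φ` is `#H_{f,g}(im φ)`. -/
@[to_additive]
theorem mulQ_bot_range (hφ : Function.Injective φ) (hf : ∀ a, φ (f a) = f' (φ a))
    (hg : ∀ a, φ (g a) = g' (φ a)) : mulQ f' g' ⊥ φ.range = mulQ f g ⊥ ⊤ := by
  rw [← mulQ_map φ hφ hf hg, Subgroup.map_bot, MonoidHom.range_eq_map]

/-- Invariance under equivariant isomorphisms. -/
@[to_additive]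
theorem mulQ_congr_equiv (e : A ≃* A') (hf : ∀ a, e (f a) = f' (e a))
    (hg : ∀ a, e (g a) = g' (e a)) : mulQ f g ⊥ ⊤ = mulQ f' g' ⊥ ⊤ := by
  rw [← mulQ_ker_top e.toMonoidHom e.surjective hf hg,
    (MonoidHom.ker_eq_bot_iff e.toMonoidHom).2 e.injective]

/-- The subquotient `T / S` computed on the type `↥T`. -/
@[to_additive]
theorem mulQ_subgroupOf {S T : Subgroup A} (hST : S ≤ T) (fT gT : T →* T)
    (hf : ∀ t : T, (fT t : A) = f t) (hg : ∀ t : T, (gT t : A) = g t) :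
    mulQ fT gT (S.subgroupOf T) ⊤ = mulQ f g S T := by
  rw [← mulQ_map T.subtype T.subtype_injective (f' := f) (g' := g) hf hg,
    ← MonoidHom.range_eq_map, T.range_subtype, subgroupOf_map_subtype, inf_eq_left.2 hST]

/-- If `ψ : T → X` is an equivariant surjection with kernel `S`, then `H(T/S) = H(X)`. -/
@[to_additive]
theorem mulQ_eq_of_surjective_subtype {S T : Subgroup A} (hST : S ≤ T)
    (hfT : ∀ x ∈ T, f x ∈ T) (hgT : ∀ x ∈ T, g x ∈ T)
    (ψ : T →* A') (hψ : Function.Surjective ψ) (hker : ∀ t : T, ψ t = 1 ↔ (t : A) ∈ S)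
    (hf : ∀ t : T, ψ ⟨f t, hfT t t.2⟩ = f' (ψ t)) (hg : ∀ t : T, ψ ⟨g t, hgT t t.2⟩ = g' (ψ t)) :
    mulQ f g S T = mulQ f' g' ⊥ ⊤ := by
  let fT : T →* T := (f.comp T.subtype).codRestrict T (fun t => hfT t t.2)
  let gT : T →* T := (g.comp T.subtype).codRestrict T (fun t => hgT t t.2)
  rw [← mulQ_subgroupOf hST fT gT (fun _ => rfl) (fun _ => rfl),
    ← mulQ_ker_top ψ hψ (f := fT) (g := gT) hf hg]
  congr 1
  ext t
  rw [mem_subgroupOf, MonoidHom.mem_ker, hker]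

end Transport

end Fermat.Agent.CFT.HQ
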